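import Fermat.Agent.S58.Contracts

/-!
# S58 / MOD-4 : the newform of minimal level
-/

set_option autoImplicit false

open CongruenceSubgroup ModularFormClass

namespace Fermat.Agent.S58

/-- **MOD-4.**  Newform of minimal level (`Nat.find` on `{M | M ∣ N ∧ GoodEigensystemOccursAt f M}`, which contains `N`). -/
theorem exists_newform {N : ℕ} (hN : N ≠ 0) {f : CuspForm (Gamma0 N) 2} (hf : f.IsNormalizedEigenform) :
    ∃ (M : ℕ) (_ : M ∣ N) (g : CuspForm (Gamma0 M) 2), g.IsNewform ∧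
      ∀ ℓ : ℕ, ℓ.Prime → ¬ ℓ ∣ N → qCoeff g ℓ = qCoeff f ℓ := by
  classical
  have hex : ∃ M : ℕ, M ∣ N ∧ f.GoodEigensystemOccursAt M :=
    ⟨N, dvd_rfl, CuspForm.GoodEigensystemOccursAt.refl hf⟩
  obtain ⟨hMN, g, hg, hgf⟩ := Nat.find_spec hex
  have hM0 : Nat.find hex ≠ 0 := fun h0 => hN (Nat.eq_zero_of_zero_dvd (h0 ▸ hMN))
  refine ⟨Nat.find hex, hMN, g, ⟨hg, ?_⟩, hgf⟩
  rintro M' hM' hne ⟨g', hg', hgg'⟩
  have hlt : M' < Nat.find hex :=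
    lt_of_le_of_ne (Nat.le_of_dvd (Nat.pos_of_ne_zero hM0) hM') hne
  refine Nat.find_min hex hlt ⟨hM'.trans hMN, g', hg', fun ℓ hℓ hℓN => ?_⟩
  rw [hgg' ℓ hℓ (fun h => hℓN (h.trans hMN)), hgf ℓ hℓ hℓN]

end Fermat.Agent.S58
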