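import Fermat.Agent.S58.Mod.Stab

/-!
# S58 / MOD-3 : stabilisation to any squarefree multiple of the level
-/

set_option autoImplicit false

open CongruenceSubgroup ModularFormClass

namespace Fermat.Agent.S58

theorem Raise_aux : ∀ (k M C : ℕ) [NeZero M], C = M * k → Squarefree C →
    ∀ g : CuspForm (Gamma0 M) 2, g.IsNormalizedEigenform →
    ∃ f : CuspForm (Gamma0 C) 2, f.IsNormalizedEigenform ∧
      ∀ ℓ : ℕ, ℓ.Prime → ¬ ℓ ∣ C → qCoeff f ℓ = qCoeff g ℓ := by
  intro k
  induction k using Nat.strong_induction_on with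
  | _ k ih =>
    intro M C _ hCk hC g hg
    rcases Nat.lt_or_ge k 2 with hk | hk
    · interval_cases k
      · rw [Nat.mul_zero] at hCk
        subst hCk
        exact absurd hC not_squarefree_zero
      · rw [Nat.mul_one] at hCk
        subst hCk
        exact ⟨g, hg, fun _ _ _ => rfl⟩
    · have hk1 : k ≠ 1 := by omega
      have hq : k.minFac.Prime := Nat.minFac_prime hk1
      obtain ⟨k', hk'⟩ := Nat.minFac_dvd k
      have hC' : C = M * k.minFac * k' := by rw [hCk, Nat.mul_assoc, ← hk']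
      have hqC : k.minFac ∣ C := ⟨M * k', by rw [hC']; ring⟩
      have hqM : ¬ k.minFac ∣ M := by
        rintro ⟨m, hm⟩
        have h1 : k.minFac * k.minFac ∣ C := ⟨m * k', by rw [hC', hm]; ring⟩
        exact hq.not_isUnit (hC _ h1)
      have hk'lt : k' < k := by
        have hk'0 : 0 < k' := by
          rcases Nat.eq_zero_or_pos k' with h0 | h0
          · rw [h0, Nat.mul_zero] at hk'; omega
          · exact h0
        calc k' = 1 * k' := (Nat.one_mul k').symm
          _ < k.minFac * k' := Nat.mul_lt_mul_of_pos_right hq.one_lt hk'0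
          _ = k := hk'.symm
      obtain ⟨g₁, hg₁, hg₁c⟩ := exists_eigenform_mul_prime hq hqM hg
      have : NeZero (M * k.minFac) := ⟨Nat.mul_ne_zero (NeZero.ne M) hq.ne_zero⟩
      obtain ⟨f, hf, hfc⟩ := ih k' hk'lt (M * k.minFac) C hC' hC g₁ hg₁
      refine ⟨f, hf, fun ℓ hℓ hℓC => ?_⟩
      rw [hfc ℓ hℓ hℓC]
      exact hg₁c ℓ hℓ (fun h => hℓC (h ▸ hqC))

/-- **MOD-3.**  Induction on `k` (`C = M * k`, generalise `M`, `g`; `k = 1`: `subst`; `k = q * k'`, `q = k.minFac`:
`M * (q * k') = (M * q) * k'`, `q ∤ M` because `C` is squarefree). -/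
theorem exists_eigenform_of_dvd {M C : ℕ} [NeZero M] (hC : Squarefree C) (hMC : M ∣ C)
    {g : CuspForm (Gamma0 M) 2} (hg : g.IsNormalizedEigenform) :
    ∃ f : CuspForm (Gamma0 C) 2, f.IsNormalizedEigenform ∧
      ∀ ℓ : ℕ, ℓ.Prime → ¬ ℓ ∣ C → qCoeff f ℓ = qCoeff g ℓ := by
  obtain ⟨k, hk⟩ := hMC
  exact Raise_aux k M C hk hC g hg

end Fermat.Agent.S58
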