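import Fermat.Agent.S58.Contracts
import Fermat.Agent.GAL.HK.EigenPeriod

/-!
# S58 / MOD-5 : the character of the Hecke algebra attached to an eigenform
-/

set_option autoImplicit false

open CongruenceSubgroup ModularFormClass

namespace Fermat.Agent.S58

/-- **MOD-5.**  `g` is an eigenvector of every generator (`GAL.HK.heckeTLin_levelUp (dvd_refl M)`, `levelUp (dvd_refl _) g = g`
by `DFunLike.ext`/`coe_levelUp`; there are no `U`-generators because of `hMS`), hence of every element of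
`Algebra.adjoin` (`Algebra.adjoin_induction`): `∀ T ∈ heckeAlgebra, ∃ c ∈ R₀, T g = c • g` with `R₀` the subring generated by the
eigenvalues.  `chig T :=` the eigenvalue (`= qCoeff (T g) 1`, or `Classical.choose`; unique because `g ≠ 0`:
`hg.ne_zero`). -/
theorem exists_chi {M : ℕ} [NeZero M] {g : CuspForm (Gamma0 M) 2} (hg : g.IsNormalizedEigenform)
    (S : Finset ℕ) (hMS : ∀ q : ℕ, q.Prime → q ∣ M → q ∈ S) :
    ∃ chig : CuspForm.heckeAlgebra M 2 (↑S : Set ℕ) →+* ℂ,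
      (∀ (ℓ : ℕ) (hℓ : ℓ.Prime) (hℓM : ¬ ℓ ∣ M) (hℓS : ℓ ∉ (↑S : Set ℕ)),
        chig (CuspForm.heckeAlgebra.T hℓ hℓM hℓS) = qCoeff g ℓ) ∧
      ∀ R : Subring ℂ, (∀ ℓ : ℕ, ℓ.Prime → ¬ ℓ ∣ M → ℓ ∉ S → qCoeff g ℓ ∈ R) → chig.range ≤ R := by
  classical
  have hg0 : g ≠ 0 := hg.ne_zero
  have huniq : ∀ c c' : ℂ, c • g = c' • g → c = c' := by
    intro c c' h
    have h1 : (c - c') • g = 0 := by rw [sub_smul, h, sub_self]
    rcases smul_eq_zero.1 h1 with h2 | h2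
    · exact sub_eq_zero.1 h2
    · exact absurd h2 hg0
  have hT : ∀ (ℓ : ℕ) (hℓ : ℓ.Prime) (hℓM : ¬ ℓ ∣ M),
      CuspForm.heckeTLin 2 hℓ hℓM g = qCoeff g ℓ • g := by
    intro ℓ hℓ hℓM
    have h1 := GAL.HK.heckeTLin_levelUp (dvd_refl M) hg hℓ hℓM
    have h2 : GAL.HK.levelUp (dvd_refl M) g = g := DFunLike.ext _ _ (fun _ => rfl)
    rwa [h2] at h1
  let R₀ : Subring ℂ :=
    Subring.closure {c | ∃ ℓ : ℕ, ℓ.Prime ∧ ¬ ℓ ∣ M ∧ ℓ ∉ S ∧ c = qCoeff g ℓ}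
  have key : ∀ T ∈ CuspForm.heckeAlgebra M 2 (↑S : Set ℕ), ∃ c ∈ R₀, T g = c • g := by
    intro T hT'
    induction hT' using Algebra.adjoin_induction with
    | mem T hTg =>
      rcases hTg with ⟨ℓ, hℓ, hℓM, hℓS, rfl⟩ | ⟨q, hqM, hq, hqS, rfl⟩
      · exact ⟨qCoeff g ℓ, Subring.subset_closure ⟨ℓ, hℓ, hℓM, fun h => hℓS h, rfl⟩, hT ℓ hℓ hℓM⟩
      · exact absurd (Finset.mem_coe.2 (hMS q hq hqM)) hqS
    | algebraMap n =>
      refine ⟨(n : ℂ), intCast_mem _ n, ?_⟩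
      rw [Algebra.algebraMap_eq_smul_one, LinearMap.smul_apply, Module.End.one_apply,
        Int.cast_smul_eq_zsmul]
    | add T T' _ _ h h' =>
      obtain ⟨c, hc, e⟩ := h
      obtain ⟨c', hc', e'⟩ := h'
      exact ⟨c + c', R₀.add_mem hc hc', by rw [LinearMap.add_apply, e, e', add_smul]⟩
    | mul T T' _ _ h h' =>
      obtain ⟨c, hc, e⟩ := h
      obtain ⟨c', hc', e'⟩ := h'
      exact ⟨c * c', R₀.mul_mem hc hc', by
        rw [Module.End.mul_apply, e', map_smul, e, smul_smul, mul_comm]⟩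
  choose χ hχR hχ using key
  have hval : ∀ (T : CuspForm.heckeAlgebra M 2 (↑S : Set ℕ)) (c : ℂ),
      (T : Module.End ℂ (CuspForm (Gamma0 M) 2)) g = c • g → χ T.1 T.2 = c :=
    fun T c h => huniq _ _ ((hχ T.1 T.2).symm.trans h)
  let chig : CuspForm.heckeAlgebra M 2 (↑S : Set ℕ) →+* ℂ :=
    { toFun := fun T => χ T.1 T.2
      map_one' := hval 1 1 (by rw [one_smul]; rfl)
      map_zero' := hval 0 0 (by rw [zero_smul]; rfl)
      map_add' := fun T T' => hval (T + T') _ (by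
        rw [add_smul, ← hχ T.1 T.2, ← hχ T'.1 T'.2]; rfl)
      map_mul' := fun T T' => hval (T * T') _ (by
        have : ((T * T' : CuspForm.heckeAlgebra M 2 (↑S : Set ℕ)) :
            Module.End ℂ (CuspForm (Gamma0 M) 2)) g = T.1 (T'.1 g) := rfl
        rw [this, hχ T'.1 T'.2, map_smul, hχ T.1 T.2, smul_smul, mul_comm]) }
  refine ⟨chig, fun ℓ hℓ hℓM hℓS => hval _ _ (hT ℓ hℓ hℓM), fun R hR => ?_⟩
  have hle : R₀ ≤ R := by
    rw [Subring.closure_le]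
    rintro _ ⟨ℓ, hℓ, hℓM, hℓS, rfl⟩
    exact hR ℓ hℓ hℓM hℓS
  rintro _ ⟨T, rfl⟩
  exact hle (hχR T.1 T.2)

end Fermat.Agent.S58
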