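import Fermat.Agent.S58.Mod.Schur

/-!
# S58 / MOD-7 : `ℤ[α] → ℤ_λ`
-/

set_option autoImplicit false

open Polynomial

namespace Fermat.Agent.S58

/-- **MOD-7a.**  `P := minpoly ℤ α` (monic, irreducible: `minpoly.irreducible`/`minpoly.isIntegrallyClosed...`), root `β` from
`exists_prime_root`;  `Algebra.adjoin ℤ {α} ≃ AdjoinRoot P` (`minpoly.equivAdjoin`, file
`Mathlib/FieldTheory/Minpoly/IsIntegrallyClosed.lean`), `AdjoinRoot.lift`. -/
theorem exists_prime_hom (α : ℂ) (hα : IsIntegral ℤ α) (B : Finset ℕ) :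
    ∃ (lam : ℕ) (_ : Fact lam.Prime), lam ∉ B ∧
      Nonempty ((Algebra.adjoin ℤ {α}).toSubring →+* ℤ_[lam]) := by
  obtain ⟨lam, hlam, hB, β, hβ⟩ := exists_prime_root (minpoly ℤ α) (minpoly.monic hα)
    (minpoly.prime_of_isIntegrallyClosed hα).irreducible B
  refine ⟨lam, hlam, hB, ⟨?_⟩⟩
  let l : AdjoinRoot (minpoly ℤ α) →+* ℤ_[lam] :=
    AdjoinRoot.lift (algebraMap ℤ ℤ_[lam]) β hβ
  let e : Algebra.adjoin ℤ {α} →+* AdjoinRoot (minpoly ℤ α) :=
    ((minpoly.equivAdjoin hα).symm : Algebra.adjoin ℤ {α} →ₐ[ℤ] AdjoinRoot (minpoly ℤ α)).toRingHom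
  exact
    { toFun := fun x => l (e ⟨x.1, x.2⟩)
      map_one' := (congrArg l (map_one e)).trans (map_one l)
      map_zero' := (congrArg l (map_zero e)).trans (map_zero l)
      map_mul' := fun x y =>
        (congrArg l (map_mul e ⟨x.1, x.2⟩ ⟨y.1, y.2⟩)).trans (map_mul l _ _)
      map_add' := fun x y =>
        (congrArg l (map_add e ⟨x.1, x.2⟩ ⟨y.1, y.2⟩)).trans (map_add l _ _) }

/-- **MOD-7b.**  `minpoly ℤ α` has the root `a` in `R`, hence in `ℤ`; it is irreducible and monic, so it is `X - a`. -/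
theorem eq_intCast_of_hom {α : ℂ} (hα : IsIntegral ℤ α) {R : Type*} [CommRing R] [IsDomain R]
    [CharZero R] (j : (Algebra.adjoin ℤ {α}).toSubring →+* R) (a : ℤ)
    (h : j ⟨α, Algebra.self_mem_adjoin_singleton ℤ α⟩ = a) : α = a := by
  let S := (Algebra.adjoin ℤ {α}).toSubring
  let α' : S := ⟨α, Algebra.self_mem_adjoin_singleton ℤ α⟩
  have h' : j α' = a := h
  set P := minpoly ℤ α with hP
  have h0 : P.eval₂ (Int.castRingHom ℂ) α = 0 := minpoly.aeval ℤ α
  have h1 : P.eval₂ (Int.castRingHom S) α' = 0 := by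
    apply S.subtype_injective
    rw [Polynomial.hom_eval₂, map_zero, Subsingleton.elim (S.subtype.comp (Int.castRingHom S))
      (Int.castRingHom ℂ)]
    exact h0
  have h2 : P.eval₂ (Int.castRingHom R) (a : R) = 0 := by
    have h3 := congrArg j h1
    rw [Polynomial.hom_eval₂, map_zero, Subsingleton.elim (j.comp (Int.castRingHom S))
      (Int.castRingHom R), h'] at h3
    exact h3
  have h3 : P.eval a = 0 := by
    have h4 : ((P.eval a : ℤ) : R) = 0 := by
      rw [← h2]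
      have h5 := Polynomial.hom_eval₂ P (RingHom.id ℤ) (Int.castRingHom R) a
      rw [RingHom.comp_id] at h5
      exact h5
    exact_mod_cast h4
  obtain ⟨Q, hQ⟩ := Polynomial.dvd_iff_isRoot.2 h3
  have hirr : Irreducible P := (minpoly.prime_of_isIntegrallyClosed hα).irreducible
  have hQu : IsUnit Q := by
    rcases hirr.isUnit_or_isUnit hQ with hu | hu
    · exact absurd hu (Polynomial.not_isUnit_X_sub_C a)
    · exact hu
  have h5 : aeval α P = 0 := minpoly.aeval ℤ α
  rw [hQ, map_mul] at h5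
  have h6 : aeval α Q ≠ 0 := (hQu.map (aeval α)).ne_zero
  have h7 : aeval α (X - C a : ℤ[X]) = 0 := (mul_eq_zero.1 h5).resolve_right h6
  rw [map_sub, aeval_X, aeval_C, sub_eq_zero] at h7
  simpa using h7

end Fermat.Agent.S58
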