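import Mathlib

/-!
# S58 / MOD-6 : Schur + Hensel : an irreducible monic integral polynomial has a root in `ℤ_λ` for infinitely many `λ`
-/

set_option autoImplicit false

open Polynomial

namespace Fermat.Agent.S58

/-- Schur: a nonconstant integral polynomial has a zero modulo a prime outside any finite set.
(`P(0) = 0`: take `n = 0` and any prime outside `B` (`Nat.exists_infinite_primes`).  `a₀ := P(0) ≠ 0`, `m := ∏ B`:
`P (a₀ m t) = a₀ (1 + m t R(t))`, and `1 + m t R(t) ≠ ±1` for some `t` because a nonconstant polynomial takes each value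
finitely often; a prime factor of it does not divide `m`.) -/
theorem exists_prime_dvd_eval (P : ℤ[X]) (hP : 0 < P.natDegree) (B : Finset ℕ) :
    ∃ (lam : ℕ) (n : ℤ), lam.Prime ∧ lam ∉ B ∧ (lam : ℤ) ∣ P.eval n := by
  classical
  by_cases h0 : P.eval 0 = 0
  · obtain ⟨l, hl, hlp⟩ := Nat.exists_infinite_primes (B.sup id + 1)
    refine ⟨l, 0, hlp, fun hB => ?_, by rw [h0]; exact dvd_zero _⟩
    have : l ≤ B.sup id := Finset.le_sup (f := id) hB
    omega
  set a₀ : ℤ := P.eval 0 with ha₀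
  set m : ℕ := ∏ b ∈ B.filter Nat.Prime, b with hm
  have hm0 : (m : ℤ) ≠ 0 := by
    rw [hm, Nat.cast_ne_zero, Finset.prod_ne_zero_iff]
    intro b hb
    exact (Finset.mem_filter.1 hb).2.ne_zero
  set L : ℤ[X] := C (a₀ * m) * X with hL
  have hLdeg : L.natDegree = 1 := natDegree_C_mul_X _ (mul_ne_zero h0 hm0)
  have hcomp : 0 < (P.comp L).natDegree := by
    rw [natDegree_comp, hLdeg, mul_one]
    exact hP
  have hne : ∀ c : ℤ, P.comp L + C c ≠ 0 := by
    intro c h
    have h1 : P.comp L = C (-c) := by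
      rw [C_neg]
      exact eq_neg_of_add_eq_zero_left h
    rw [h1, natDegree_C] at hcomp
    exact lt_irrefl _ hcomp
  set T : ℤ[X] := (P.comp L + C (-a₀)) * (P.comp L + C a₀) with hT
  have hT0 : T ≠ 0 := mul_ne_zero (hne _) (hne _)
  obtain ⟨t, ht⟩ := Infinite.exists_notMem_finset T.roots.toFinset
  have ht' : T.eval t ≠ 0 := by
    intro h
    exact ht (Multiset.mem_toFinset.2 ((mem_roots hT0).2 h))
  -- the decomposition of `P`
  have hdec : ∀ x : ℤ, P.eval x = a₀ + x * P.divX.eval x := by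
    intro x
    conv_lhs => rw [← divX_mul_X_add P]
    rw [eval_add, eval_mul, eval_X, eval_C, ha₀, ← coeff_zero_eq_eval_zero]
    ring
  set n : ℤ := a₀ * m * t with hn
  have hLt : L.eval t = n := by
    rw [hL, eval_mul, eval_C, eval_X]
  set s : ℤ := 1 + m * (t * P.divX.eval n) with hs
  have hPn : P.eval n = a₀ * s := by
    rw [hdec n, hs, hn]
    ring
  have hs1 : s.natAbs ≠ 1 := by
    intro h
    apply ht'
    rw [hT, eval_mul, eval_add, eval_add, eval_comp, hLt, eval_C, eval_C, hPn]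
    rcases Int.natAbs_eq s with h' | h' <;> rw [h] at h' <;> rw [h'] <;> simp
  obtain ⟨l, hlp, hls⟩ := Nat.exists_prime_and_dvd hs1
  have hls' : (l : ℤ) ∣ s := Int.natCast_dvd.2 hls
  refine ⟨l, n, hlp, fun hB => ?_, by rw [hPn]; exact Dvd.dvd.mul_left hls' _⟩
  have hlm : l ∣ m := Finset.dvd_prod_of_mem (fun b => b) (Finset.mem_filter.2 ⟨hB, hlp⟩)
  have hlm' : (l : ℤ) ∣ m * (t * P.divX.eval n) := Dvd.dvd.mul_right (Int.natCast_dvd_natCast.2 hlm) _
  have h1 : (l : ℤ) ∣ 1 := by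
    have := dvd_sub hls' hlm'
    rwa [hs, add_sub_cancel_right] at this
  have h2 : l ∣ 1 := by exact_mod_cast h1
  exact hlp.one_lt.ne' (Nat.dvd_one.1 h2)

/-- Bezout over `ℚ` with cleared denominators (`P` irreducible over `ℤ`, monic ⇒ irreducible over `ℚ`
(`Polynomial.Monic.irreducible_iff_irreducible_map_fraction_map`), separable in characteristic 0). -/
theorem exists_bezout_derivative (P : ℤ[X]) (hP : P.Monic) (hirr : Irreducible P) :
    ∃ (U V : ℤ[X]) (c : ℤ), c ≠ 0 ∧ U * P + V * derivative P = C c := by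
  have hirrQ : Irreducible (P.map (algebraMap ℤ ℚ)) :=
    (hP.irreducible_iff_irreducible_map_fraction_map (K := ℚ)).1 hirr
  obtain ⟨a, b, hab⟩ := hirrQ.separable
  obtain ⟨d₁, h₁⟩ := IsLocalization.integerNormalization_map_to_map (nonZeroDivisors ℤ) a
  obtain ⟨d₂, h₂⟩ := IsLocalization.integerNormalization_map_to_map (nonZeroDivisors ℤ) b
  refine ⟨C (d₂ : ℤ) * IsLocalization.integerNormalization (nonZeroDivisors ℤ) a,
    C (d₁ : ℤ) * IsLocalization.integerNormalization (nonZeroDivisors ℤ) b, (d₁ : ℤ) * d₂,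
    mul_ne_zero (nonZeroDivisors.coe_ne_zero d₁) (nonZeroDivisors.coe_ne_zero d₂), ?_⟩
  apply Polynomial.map_injective (algebraMap ℤ ℚ) (algebraMap ℤ ℚ).injective_int
  rw [Polynomial.map_add, Polynomial.map_mul, Polynomial.map_mul, Polynomial.map_mul,
    Polynomial.map_mul, h₁, h₂, ← derivative_map, map_C, map_C, map_C, map_mul, C_mul,
    Algebra.smul_def, Algebra.smul_def]
  have hC : ∀ z : ℤ, algebraMap ℤ ℚ[X] z = C (algebraMap ℤ ℚ z) := fun z => rfl
  rw [hC, hC]
  linear_combination (C (algebraMap ℤ ℚ d₁) * C (algebraMap ℤ ℚ d₂)) * hab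

/-- **MOD-6.**  `exists_prime_dvd_eval` with `B ∪ primeFactors c`, then `hensels_lemma` in `ℤ_[lam]`
(`‖P(n)‖ < 1 = ‖P'(n)‖²`). -/
theorem exists_prime_root (P : ℤ[X]) (hP : P.Monic) (hirr : Irreducible P) (B : Finset ℕ) :
    ∃ (lam : ℕ) (_ : Fact lam.Prime), lam ∉ B ∧ ∃ β : ℤ_[lam], aeval β P = 0 := by
  classical
  obtain ⟨U, V, c, hc, hUV⟩ := exists_bezout_derivative P hP hirr
  have hdeg : 0 < P.natDegree := by
    rw [Nat.pos_iff_ne_zero]
    intro h
    exact hirr.not_isUnit (by rw [hP.natDegree_eq_zero.1 h]; exact isUnit_one)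
  obtain ⟨lam, n, hlam, hB, hdvd⟩ := exists_prime_dvd_eval P hdeg (B ∪ c.natAbs.primeFactors)
  rw [Finset.mem_union, not_or] at hB
  haveI : Fact lam.Prime := ⟨hlam⟩
  refine ⟨lam, ⟨hlam⟩, hB.1, ?_⟩
  have hlc : ¬ (lam : ℤ) ∣ c := by
    intro h
    apply hB.2
    rw [Nat.mem_primeFactors]
    exact ⟨hlam, Int.natCast_dvd.1 h, Int.natAbs_ne_zero.2 hc⟩
  have hder : ¬ (lam : ℤ) ∣ (derivative P).eval n := by
    intro h
    apply hlc
    have h1 := congrArg (eval n) hUV
    rw [eval_add, eval_mul, eval_mul, eval_C] at h1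
    rw [← h1]
    exact dvd_add (Dvd.dvd.mul_left hdvd _) (Dvd.dvd.mul_left h _)
  have hev : ∀ Q : ℤ[X], aeval (n : ℤ_[lam]) Q = ((Q.eval n : ℤ) : ℤ_[lam]) := by
    intro Q
    have := Polynomial.aeval_algebraMap_apply ℤ_[lam] n Q
    simpa using this
  have hnorm : ‖aeval (n : ℤ_[lam]) P‖ < ‖aeval (n : ℤ_[lam]) (derivative P)‖ ^ 2 := by
    rw [hev, hev]
    have h1 : ‖((P.eval n : ℤ) : ℤ_[lam])‖ < 1 := PadicInt.norm_int_lt_one_iff_dvd _ |>.2 hdvd
    have h2 : ‖(((derivative P).eval n : ℤ) : ℤ_[lam])‖ = 1 :=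
      le_antisymm (PadicInt.norm_le_one _)
        (not_lt.1 fun h => hder ((PadicInt.norm_int_lt_one_iff_dvd _).1 h))
    rw [h2, one_pow]
    exact h1
  obtain ⟨z, hz, -⟩ := hensels_lemma hnorm
  exact ⟨z, hz⟩

end Fermat.Agent.S58
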