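import Mathlib

/-!
# S58 / MOD-1 : formal stabilisation of a Hecke eigen-sequence   (pure algebra on `ℕ → ℂ`)
-/

set_option autoImplicit false

namespace Fermat.Agent.S58

/-- the four relations of `CuspForm.IsNormalizedEigenform`, for a sequence. -/
structure IsEigSeq (N : ℕ) (a : ℕ → ℂ) : Prop where
  one : a 1 = 1
  mul : ∀ m n : ℕ, m.Coprime n → a (m * n) = a m * a n
  good : ∀ p r : ℕ, p.Prime → ¬ p ∣ N → a (p ^ (r + 2)) = a p * a (p ^ (r + 1)) - p * a (p ^ r)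
  bad : ∀ p r : ℕ, p.Prime → p ∣ N → a (p ^ (r + 2)) = a p * a (p ^ (r + 1))

/-- `a (q^(r+1)) - β a (q^r) = α^(r+1)` for `α + β = a q`, `α β = q`  (induction on `r` with `good`). -/
theorem IsEigSeq.pow_sub {N : ℕ} {a : ℕ → ℂ} (h : IsEigSeq N a) {q : ℕ} (hq : q.Prime) (hqN : ¬ q ∣ N)
    {α β : ℂ} (hs : α + β = a q) (hp : α * β = q) (r : ℕ) :
    a (q ^ (r + 1)) - β * a (q ^ r) = α ^ (r + 1) := by
  induction r with
  | zero =>
    rw [zero_add, pow_one, pow_zero, pow_one, h.one, ← hs]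
    ring
  | succ r ih =>
    rw [h.good q r hq hqN, ← hs, ← hp, pow_succ α (r + 1), ← ih]
    ring

/-- the stabilised sequence on `n = q^r n'`, `q ∤ n'`. -/
theorem IsEigSeq.stab_apply {N : ℕ} {a : ℕ → ℂ} (h : IsEigSeq N a) {q : ℕ} (hq : q.Prime) (hqN : ¬ q ∣ N)
    {α β : ℂ} (hs : α + β = a q) (hp : α * β = q) (r n' : ℕ) (hn' : ¬ q ∣ n') :
    (a (q ^ r * n' * q) - β * a (q ^ r * n')) / α = α ^ r * a n' := by
  have hα : α ≠ 0 := by
    rintro rfl
    rw [zero_mul] at hp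
    exact (Nat.cast_ne_zero.2 hq.ne_zero) hp.symm
  have hc : ∀ k : ℕ, (q ^ k).Coprime n' := fun k =>
    Nat.Coprime.pow_left k ((Nat.Prime.coprime_iff_not_dvd hq).2 hn')
  have e1 : q ^ r * n' * q = q ^ (r + 1) * n' := by ring
  rw [e1, h.mul _ _ (hc (r + 1)), h.mul _ _ (hc r), div_eq_iff hα]
  have := h.pow_sub hq hqN hs hp r
  linear_combination a n' * this

/-- abstract form of `stab`. -/
theorem IsEigSeq.Seq_stab_aux {N : ℕ} {a : ℕ → ℂ} (h : IsEigSeq N a) {q : ℕ} (hq : q.Prime)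
    {α : ℂ} (b : ℕ → ℂ) (key : ∀ r n' : ℕ, ¬ q ∣ n' → b (q ^ r * n') = α ^ r * a n') :
    IsEigSeq (N * q) b := by
  have key0 : ∀ n' : ℕ, ¬ q ∣ n' → b n' = a n' := by
    intro n' hn'
    simpa using key 0 n' hn'
  have keyq : ∀ r : ℕ, b (q ^ r) = α ^ r := by
    intro r
    have := key r 1 (fun hd => hq.one_lt.ne' (Nat.dvd_one.1 hd))
    rwa [mul_one, h.one, mul_one] at this
  have hone : b 1 = 1 := by
    simpa using keyq 0
  refine ⟨hone, ?_, ?_, ?_⟩
  · intro m n hmn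
    by_cases hm : m = 0
    · subst hm
      rw [Nat.coprime_zero_left] at hmn
      subst hmn
      rw [hone, mul_one, mul_one]
    by_cases hn : n = 0
    · subst hn
      rw [Nat.coprime_zero_right] at hmn
      subst hmn
      rw [hone, one_mul, one_mul]
    obtain ⟨r, m', hm', rfl⟩ := Nat.exists_eq_pow_mul_and_not_dvd hm q hq.ne_one
    obtain ⟨s, n', hn', rfl⟩ := Nat.exists_eq_pow_mul_and_not_dvd hn q hq.ne_one
    have hmn' : m'.Coprime n' :=
      Nat.Coprime.coprime_dvd_left (Dvd.intro_left _ rfl)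
        (Nat.Coprime.coprime_dvd_right (Dvd.intro_left _ rfl) hmn)
    have hq' : ¬ q ∣ m' * n' := fun hd => (hq.dvd_mul.1 hd).elim hm' hn'
    have e : q ^ r * m' * (q ^ s * n') = q ^ (r + s) * (m' * n') := by ring
    rw [e, key _ _ hq', key _ _ hm', key _ _ hn', h.mul _ _ hmn']
    ring
  · intro p r hp' hpN
    have hpq : p ≠ q := by
      rintro rfl
      exact hpN (Dvd.intro_left _ rfl)
    have hpN' : ¬ p ∣ N := fun hd => hpN (Dvd.dvd.mul_right hd q)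
    have hk : ∀ k : ℕ, ¬ q ∣ p ^ k := fun k hd =>
      hpq ((Nat.prime_dvd_prime_iff_eq hq hp').1 (hq.dvd_of_dvd_pow hd)).symm
    have h1 := hk 1
    rw [pow_one] at h1
    rw [key0 _ (hk _), key0 _ (hk _), key0 _ (hk _), key0 _ h1]
    exact h.good p r hp' hpN'
  · intro p r hp' hpN
    by_cases hpq : p = q
    · subst hpq
      have h1 := keyq 1
      rw [pow_one, pow_one] at h1
      rw [keyq, keyq, h1]
      ring
    · have hpN' : p ∣ N := (hp'.dvd_mul.1 hpN).resolve_right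
        (fun hd => hpq ((Nat.prime_dvd_prime_iff_eq hp' hq).1 hd))
      have hk : ∀ k : ℕ, ¬ q ∣ p ^ k := fun k hd =>
        hpq ((Nat.prime_dvd_prime_iff_eq hq hp').1 (hq.dvd_of_dvd_pow hd)).symm
      have h1 := hk 1
      rw [pow_one] at h1
      rw [key0 _ (hk _), key0 _ (hk _), key0 _ h1]
      exact h.bad p r hp' hpN'

/-- **Formal stabilisation.**  (Write `n = q^r n'` (`Nat.exists_eq_pow_mul_and_not_dvd` for `n ≠ 0`; the only instance of
`mul` with a zero argument is `(0, 1)`, `(1, 0)`); use `stab_apply`.) -/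
theorem IsEigSeq.stab {N : ℕ} {a : ℕ → ℂ} (h : IsEigSeq N a) {q : ℕ} (hq : q.Prime) (hqN : ¬ q ∣ N)
    {α β : ℂ} (hs : α + β = a q) (hp : α * β = q) :
    IsEigSeq (N * q) (fun n => (a (n * q) - β * a n) / α) := by
  exact h.Seq_stab_aux hq (α := α) _ (fun r n' hn' => h.stab_apply hq hqN hs hp r n' hn')

theorem IsEigSeq.stab_prime {N : ℕ} {a : ℕ → ℂ} (h : IsEigSeq N a) {q : ℕ} (hq : q.Prime) (hqN : ¬ q ∣ N)
    {α β : ℂ} (hs : α + β = a q) (hp : α * β = q) {ℓ : ℕ} (hℓ : ℓ.Prime) (hℓq : ℓ ≠ q) :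
    (a (ℓ * q) - β * a ℓ) / α = a ℓ := by
  have hd : ¬ q ∣ ℓ := fun hd => hℓq ((Nat.prime_dvd_prime_iff_eq hq hℓ).1 hd).symm
  simpa using h.stab_apply hq hqN hs hp 0 ℓ hd

end Fermat.Agent.S58
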