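import Fermat.Agent.S58.Mod.Seq
import Fermat.Agent.S58.Contracts
import Fermat.Agent.GAL.HK.EigenPeriod
import Fermat.Agent.TOR.S35Asm

/-!
# S58 / MOD-2 : stabilisation of an eigenform from level `M` to level `M q`
-/

set_option autoImplicit false

open CongruenceSubgroup ModularFormClass

namespace Fermat.Agent.S58

theorem isEigSeq_iff {N : ℕ} (f : CuspForm (Gamma0 N) 2) :
    f.IsNormalizedEigenform ↔ IsEigSeq N (fun n => qCoeff f n) :=
  ⟨fun h => ⟨h.1, h.2, h.3, h.4⟩, fun h => ⟨h.1, h.2, h.3, h.4⟩⟩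

/-- a root `α` of `X² - a X + q` and its cofactor. -/
theorem Stab_exists_roots (a : ℂ) (q : ℂ) : ∃ α β : ℂ, α + β = a ∧ α * β = q := by
  obtain ⟨s, hs⟩ : ∃ s : ℂ, s ^ 2 = a ^ 2 - 4 * q := IsAlgClosed.exists_pow_nat_eq _ (by norm_num)
  refine ⟨(a + s) / 2, (a - s) / 2, by ring, ?_⟩
  have : (a + s) / 2 * ((a - s) / 2) = (a ^ 2 - s ^ 2) / 4 := by ring
  rw [this, hs]
  ring

/-- **MOD-2.**  `f := α⁻¹ • (U_q g' - β • g')`, `g' := GAL.HK.levelUp (Dvd.intro q rfl) g` at level `M q`,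
`α` a root of `X² - a_q X + q` (`IsAlgClosed.exists_root` / `Complex`; `α ≠ 0` since `α β = q`), `β := a_q - α`.
`qCoeff (U_q g') n = qCoeff g' (n q)`: Prelude `Thm_ModularFormClass_qCoeff_heckeU` / `Thm_UpperHalfPlane_qCoeff_heckeU`
(see how `TOR/S35Asm.lean heckeULin_levelUp` uses it); `qCoeff` is linear (`S49/QC.lean qcLin`, `S49/M3/QCoeff.lean qc`);
`⇑(levelUp h g) = ⇑g` (`coe_levelUp`).  Then `isEigSeq_iff` + `IsEigSeq.stab`, `IsEigSeq.stab_prime`. -/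
theorem exists_eigenform_mul_prime {M q : ℕ} [NeZero M] (hq : q.Prime) (hqM : ¬ q ∣ M)
    {g : CuspForm (Gamma0 M) 2} (hg : g.IsNormalizedEigenform) :
    ∃ f : CuspForm (Gamma0 (M * q)) 2, f.IsNormalizedEigenform ∧
      ∀ ℓ : ℕ, ℓ.Prime → ℓ ≠ q → qCoeff f ℓ = qCoeff g ℓ := by
  have : NeZero (M * q) := ⟨Nat.mul_ne_zero (NeZero.ne M) hq.ne_zero⟩
  obtain ⟨α, β, hs, hp⟩ := Stab_exists_roots (qCoeff g q) (q : ℂ)
  have hMq : M ∣ M * q := Dvd.intro q rfl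
  have hqMq : q ∣ M * q := Dvd.intro_left M rfl
  set g' : CuspForm (Gamma0 (M * q)) 2 := GAL.HK.levelUp hMq g with hg'
  set f : CuspForm (Gamma0 (M * q)) 2 := α⁻¹ • (CuspForm.heckeULin 2 hqMq g' - β • g') with hf
  have hcoeff : ∀ n : ℕ, qCoeff f n = (qCoeff g (n * q) - β * qCoeff g n) / α := by
    intro n
    have h1 : qCoeff (⇑f) n = S49.qcLin (M * q) 2 n f := rfl
    rw [h1, hf, map_smul, map_sub, map_smul, S49.qcLin_apply, S49.qcLin_apply,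
      S49.qc_heckeU hq.ne_zero, hg', GAL.HK.coe_levelUp, smul_eq_mul, smul_eq_mul, div_eq_inv_mul]
  have hseq := (isEigSeq_iff g).1 hg
  refine ⟨f, ?_, ?_⟩
  · rw [isEigSeq_iff]
    have h2 : (fun n => qCoeff f n) = fun n => (qCoeff g (n * q) - β * qCoeff g n) / α :=
      funext hcoeff
    rw [h2]
    exact hseq.stab hq hqM hs hp
  · intro ℓ hℓ hℓq
    rw [hcoeff]
    exact hseq.stab_prime hq hqM hs hp hℓ hℓq

end Fermat.Agent.S58
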